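import Mathlib
import Fermat.Prelude.Def_FreyPackage_EigenformResidualAttachment
import Fermat.Agent.S29.Assemble.Main
import Fermat.Agent.S13.LadderFrey_h9
import Fermat.Agent.S13.Open_h6

/-!
# S42 from S29

`FreyPackage.EigenformResidualAttachmentAt` for every level `M > 0` follows from the statement S29
(`Assemble.S29Statement`) applied to the algebraically closed field `K = ℤ̄ ⧸ 𝔪`:
the number field `F` is the normal closure of the compositum of a finite level of `ρ` and a finite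
level of the Frey `p`-torsion (`S13/LadderFrey_h9.card_V_le`, `S13/Open_h6`), trace and determinant
are read off from the characteristic polynomial (`dim = 2`).
-/

set_option autoImplicit false

noncomputable section

open Polynomial WeierstrassCurve WeierstrassCurve.Affine WeierstrassCurve.Affine.Point

namespace Fermat.Agent.S42.OfS29

open Fermat.Agent.S29.Assemble Fermat.Agent.S29.Alg.ResidueAlgClosed

local notation "Kb" => AlgebraicClosure ℚ
local notation "GQ" => (AlgebraicClosure ℚ ≃ₐ[ℚ] AlgebraicClosure ℚ)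
local notation "Zb" => integralClosure ℤ ℂ

/-- trace and determinant from the characteristic polynomial in dimension two. -/
theorem trace_det_of_charpoly {K V : Type*} [Field K] [AddCommGroup V] [Module K V]
    [FiniteDimensional K V]
    (h2 : Module.finrank K V = 2) (f : Module.End K V) (t d : K)
    (h : LinearMap.charpoly f = X ^ 2 - C t * X + C d) :
    LinearMap.trace K V f = t ∧ LinearMap.det f = d := by
  have h1 : LinearMap.charpoly f =
      X ^ 2 - C (LinearMap.trace K V f) * X + C (LinearMap.det f) := by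
    let b : Module.Basis (Fin 2) K V := Module.finBasisOfFinrankEq K V h2
    rw [← LinearMap.charpoly_toMatrix f b, Matrix.charpoly_fin_two,
      ← LinearMap.trace_eq_matrix_trace K b f, LinearMap.det_toMatrix b f]
  rw [h] at h1
  have c1 := congrArg (fun q : K[X] => q.coeff 1) h1
  have c0 := congrArg (fun q : K[X] => q.coeff 0) h1
  simp only [coeff_add, coeff_sub, coeff_X_pow, coeff_C_mul, coeff_X_one, coeff_C_zero,
    coeff_X_zero, coeff_C_succ, mul_one, mul_zero] at c1 c0
  norm_num at c1 c0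
  exact ⟨c1.symm, c0.symm⟩

/-- a common finite Galois level. -/
theorem exists_galois_level (L1 L2 : IntermediateField ℚ Kb) [FiniteDimensional ℚ L1]
    [FiniteDimensional ℚ L2] :
    ∃ F : IntermediateField ℚ Kb, FiniteDimensional ℚ F ∧ IsGalois ℚ F ∧ L1 ≤ F ∧ L2 ≤ F := by
  haveI : Normal ℚ Kb := Fermat.Agent.S37.Descent.Rational.normal_Kb
  refine ⟨IntermediateField.normalClosure ℚ (L1 ⊔ L2 : IntermediateField ℚ Kb) Kb, inferInstance,
    ?_, ?_, ?_⟩
  · haveI : Normal ℚ (IntermediateField.normalClosure ℚ (L1 ⊔ L2 : IntermediateField ℚ Kb) Kb) :=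
      normalClosure.normal ℚ (L1 ⊔ L2 : IntermediateField ℚ Kb) Kb
    exact ⟨⟩
  · exact le_sup_left.trans (IntermediateField.le_normalClosure _)
  · exact le_sup_right.trans (IntermediateField.le_normalClosure _)

/-- **S42 from S29.** -/
theorem s42_of_s29 (h29 : S29Statement) (P : FreyPackage) :
    ∀ M : ℕ, 0 < M → P.EigenformResidualAttachmentAt M := by
  intro M _ g hg 𝔪 h𝔪 hp𝔪
  haveI := h𝔪
  have hp : P.p.Prime := P.pp
  obtain ⟨K, iF, iAC, iCP, ψ, -, hψker⟩ := exists_quotient_field 𝔪 hp hp𝔪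
  obtain ⟨ρ, hatt, -⟩ := h29 hg hp (k := K) ψ
  obtain ⟨L1, hL1, hρ⟩ := ρ.factorsThroughFiniteLevel
  haveI := hL1
  haveI : Finite (Submodule.torsionBy ℤ (P.freyCurve⁄Kb).Point P.p) :=
    (Fermat.Agent.S13.LadderFreyH9.card_V_le P).1
  obtain ⟨L2, hL2, hE⟩ :=
    Fermat.Agent.S13.Open6.exists_finite_fixing_torsion (E := P.freyCurve) P.p
  haveI := hL2
  obtain ⟨F, hFfin, hFgal, hF1, hF2⟩ := exists_galois_level L1 L2
  haveI := hFfin
  haveI := hFgal
  haveI : NumberField F := ⟨⟩
  have hfix : ∀ σ : GQ, σ ∈ (AlgEquiv.restrictNormalHom (F := ℚ) (K₁ := Kb) F).ker →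
      ∀ x ∈ F, σ x = x := by
    intro σ hσ x hx
    rw [MonoidHom.mem_ker] at hσ
    have h1 := AlgEquiv.restrictNormal_commutes σ F ⟨x, hx⟩
    have h2 : σ.restrictNormal F = 1 := hσ
    rw [h2] at h1
    exact h1.symm
  have hℓK : ∀ ℓ : ℕ, ℓ.Prime → ℓ ≠ P.p → (ℓ : K) ≠ 0 := by
    intro ℓ hℓ hne h0
    have h1 : P.p ∣ ℓ := (CharP.cast_eq_zero_iff K P.p ℓ).mp h0
    exact hne ((Nat.prime_dvd_prime_iff_eq hp hℓ).mp h1).symm
  refine ⟨K, iF, ZMod.algebra K P.p, ρ.V, inferInstance, inferInstance, ρ.ρ, ψ, F, inferInstance,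
    inferInstance, inferInstance, inferInstance, inferInstance, hψker.ge, ρ.finrank_eq, ?_, ?_, ?_⟩
  · intro σ hσ
    have hσF := hfix σ hσ
    refine Subgroup.mem_inf.mpr ⟨?_, ?_⟩
    · rw [MonoidHom.mem_ker]
      ext x
      have hmem : σ ∈ L2.fixingSubgroup :=
        (IntermediateField.mem_fixingSubgroup_iff _ σ).mpr fun y hy => hσF y (hF2 hy)
      rw [galoisRepModuleEnd_apply]
      exact congrArg Subtype.val (hE σ hmem x)
    · exact MonoidHom.mem_ker.mpr (hρ σ fun y hy => hσF y (hF1 hy))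
  · intro ℓ hℓ hℓM hℓp A hA τ hτ
    obtain ⟨a, ha, hch⟩ := hatt ℓ hℓ hℓM (hℓK ℓ hℓ hℓp) A hA τ hτ
    exact ⟨a, ha, (trace_det_of_charpoly ρ.finrank_eq (ρ.ρ τ) _ _ hch).1⟩
  · intro ℓ hℓ hℓM hℓp A hA τ hτ
    obtain ⟨a, -, hch⟩ := hatt ℓ hℓ hℓM (hℓK ℓ hℓ hℓp) A hA τ hτ
    exact (trace_det_of_charpoly ρ.finrank_eq (ρ.ρ τ) _ _ hch).2

end Fermat.Agent.S42.OfS29

end
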